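import Fermat.Agent.S29.Parts
import Fermat.Agent.S37.Core.Final
import Fermat.Agent.S37.H99.Glue

/-!
# S37 -> S29 export (helper99): `Fermat.Agent.S29.RawESStatement` from the S37 reduction data

Row S29 (and S42/S30) consume from rows S37/S18 exactly `Fermat.Agent.S29.RawESStatement`:
inertia at `ℓ ∤ N p` fixes the `p`-torsion of `JZero N`, and every Frobenius element `σ` at `ℓ`
satisfies `σ² x - T_ℓ (σ x) + ℓ x = 0` on it, with `T_ℓ = heckeOperatorBar N ℓ`.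

This file proves it, without any commutativity hypothesis on Hecke operators, from each of
the final interfaces of row S37:

* `rawES_at_of_weakRedData` / `rawES_of_weakRedData` : from `Core.WeakRedData M A ℓ σ₀` at an
  auxiliary level `M` together with `Core.PullData N M ℓ` (the shape consumed by
  `Core.result_of_weakRedData`);
* `rawES_at_of_redData` / `rawES_of_redData` : from `H99.RedData N A ℓ hℓ` (the shape consumed by
  `H99.result_of_redData`).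

Everything is fully proved.
-/

set_option autoImplicit false

noncomputable section

namespace Fermat.Agent.S37.H99

open ModularCurve ValuationSubring

/-- abstract core: a map `red` which kills `τ x - x` for `τ` in inertia, is injective on
`p`-torsion, and kills the Eichler-Shimura expression at ONE Frobenius element `σ₀`, forces
inertia to act trivially on `p`-torsion and the Eichler-Shimura relation for EVERY Frobenius
element on `p`-torsion. -/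
theorem rawES_core {J Y : Type} [AddCommGroup J] [AddCommGroup Y]
    [DistribMulAction (AlgebraicClosure ℚ ≃ₐ[ℚ] AlgebraicClosure ℚ) J]
    (A : ValuationSubring (AlgebraicClosure ℚ)) (ℓ p : ℕ)
    (T : J →+ J) (red : J →+ Y)
    (σ₀ : AlgebraicClosure ℚ ≃ₐ[ℚ] AlgebraicClosure ℚ) (hσ₀ : A.IsFrobeniusAt σ₀ ℓ)
    (hin : ∀ τ ∈ A.inertiaSubgroupIn ℚ, ∀ x : J, red (τ • x) = red x)
    (hinj : ∀ x : J, p • x = 0 → red x = 0 → x = 0)
    (hrel : ∀ x : J, red (σ₀ • σ₀ • x - T (σ₀ • x) + ℓ • x) = 0) :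
    (∀ τ ∈ A.inertiaSubgroupIn ℚ, ∀ x : J, p • x = 0 → τ • x = x) ∧
    (∀ σ : AlgebraicClosure ℚ ≃ₐ[ℚ] AlgebraicClosure ℚ, A.IsFrobeniusAt σ ℓ →
      ∀ x : J, p • x = 0 → σ • σ • x - T (σ • x) + ℓ • x = 0) := by
  have hI : ∀ τ ∈ A.inertiaSubgroupIn ℚ, ∀ x : J, p • x = 0 → τ • x = x := by
    intro τ hτ x hx
    have h1 : p • (τ • x - x) = 0 := by
      rw [smul_sub, smul_comm p τ x, hx, smul_zero, sub_zero]
    have h2 : red (τ • x - x) = 0 := by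
      rw [map_sub, hin τ hτ x, sub_self]
    exact sub_eq_zero.mp (hinj _ h1 h2)
  refine ⟨hI, ?_⟩
  intro σ hσ x hx
  have htor : ∀ (g : AlgebraicClosure ℚ ≃ₐ[ℚ] AlgebraicClosure ℚ) (y : J),
      p • y = 0 → p • (g • y) = 0 := by
    intro g y hy
    rw [smul_comm p g y, hy, smul_zero]
  have hσσ₀ : ∀ y : J, p • y = 0 → σ • y = σ₀ • y := by
    intro y hy
    have hτ := inv_mul_mem_inertiaSubgroupIn hσ₀ hσ
    have e : σ • y = σ₀ • ((σ₀⁻¹ * σ) • y) := by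
      rw [← mul_smul, mul_inv_cancel_left]
    rw [e, hI _ hτ y hy]
  have e1 : σ • x = σ₀ • x := hσσ₀ x hx
  have e2 : σ • σ • x = σ₀ • σ₀ • x := by
    rw [hσσ₀ (σ • x) (htor σ x hx), e1]
  rw [e2, e1]
  refine hinj _ ?_ (hrel x)
  have hT : p • T (σ₀ • x) = 0 := by
    rw [← map_nsmul, htor σ₀ x hx, map_zero]
  rw [smul_add, smul_sub, htor σ₀ _ (htor σ₀ x hx), hT, smul_comm p ℓ x, hx, smul_zero,
    sub_zero, add_zero]

/-- **Raw Eichler-Shimura at one place** from a `WeakRedData` at an auxiliary level `M` and a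
`PullData N M ℓ`. -/
theorem rawES_at_of_weakRedData (N M p : ℕ) [NeZero N] [NeZero M]
    (A : ValuationSubring (AlgebraicClosure ℚ)) (ℓ : ℕ) (hℓ : ℓ.Prime) (hℓp : ¬ ℓ ∣ p)
    (σ₀ : AlgebraicClosure ℚ ≃ₐ[ℚ] AlgebraicClosure ℚ) (hσ₀ : A.IsFrobeniusAt σ₀ ℓ)
    (W : haveI : NeZero ℓ := ⟨hℓ.ne_zero⟩; Core.WeakRedData M A ℓ σ₀)
    (Pd : haveI : NeZero ℓ := ⟨hℓ.ne_zero⟩; Core.PullData N M ℓ) :
    (∀ σ ∈ A.inertiaSubgroupIn ℚ, ∀ x : JZero N, (p : ℤ) • x = 0 → σ • x = x) ∧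
    (∀ σ : AlgebraicClosure ℚ ≃ₐ[ℚ] AlgebraicClosure ℚ, A.IsFrobeniusAt σ ℓ →
      ∀ x : JZero N, (p : ℤ) • x = 0 →
        σ • σ • x - heckeOperatorBar N ⟨ℓ, hℓ⟩ (σ • x) + (ℓ : ℤ) • x = 0) := by
  haveI : NeZero ℓ := ⟨hℓ.ne_zero⟩
  have key := rawES_core (J := JZero N) A ℓ p
    (heckeOperatorAlong (AlgebraicClosure ℚ) N ℓ) (W.red.comp Pd.pull) σ₀ hσ₀
    (by
      intro τ hτ x
      show W.red (Pd.pull (τ • x)) = W.red (Pd.pull x)
      rw [Pd.galois, W.inertia τ hτ])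
    (by
      intro x hx h0
      refine Pd.inj_torsion p hℓp x hx ?_
      refine W.inj_torsion p hℓp _ ?_ h0
      rw [← map_nsmul, hx, map_zero])
    (by
      intro x
      show W.red (Pd.pull (σ₀ • σ₀ • x - heckeOperatorAlong (AlgebraicClosure ℚ) N ℓ (σ₀ • x)
        + ℓ • x)) = 0
      rw [map_add, map_sub, map_nsmul, Pd.galois, Pd.galois, Pd.hecke, Pd.galois]
      exact W.relation (Pd.pull x))
  refine ⟨?_, ?_⟩
  · intro σ hσ x hx
    exact key.1 σ hσ x (by rwa [natCast_zsmul] at hx)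
  · intro σ hσ x hx
    have := key.2 σ hσ x (by rwa [natCast_zsmul] at hx)
    rw [natCast_zsmul]
    exact this

/-- **Raw Eichler-Shimura at one place** from a `RedData`. -/
theorem rawES_at_of_redData (N p : ℕ) [NeZero N]
    (A : ValuationSubring (AlgebraicClosure ℚ)) (ℓ : ℕ) (hℓ : ℓ.Prime) (hℓp : ¬ ℓ ∣ p)
    (hA : A.LiesOverPrime ℓ) (D : RedData N A ℓ hℓ) :
    (∀ σ ∈ A.inertiaSubgroupIn ℚ, ∀ x : JZero N, (p : ℤ) • x = 0 → σ • x = x) ∧
    (∀ σ : AlgebraicClosure ℚ ≃ₐ[ℚ] AlgebraicClosure ℚ, A.IsFrobeniusAt σ ℓ →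
      ∀ x : JZero N, (p : ℤ) • x = 0 →
        σ • σ • x - heckeOperatorBar N ⟨ℓ, hℓ⟩ (σ • x) + (ℓ : ℤ) • x = 0) := by
  obtain ⟨σ₀, hσ₀⟩ := exists_isFrobeniusAt ℓ hℓ A hA
  have hpp : p.Coprime ℓ :=
    Nat.coprime_comm.mp ((Nat.Prime.coprime_iff_not_dvd hℓ).mpr hℓp)
  have key := rawES_core (J := JZero N) A ℓ p
    ((heckeOperatorBar N ⟨ℓ, hℓ⟩ : Module.End ℤ (JZero N)).toAddMonoidHom) D.red σ₀ hσ₀
    D.inertia (fun x hx h0 => D.inj_torsion p x hpp hx h0) (fun x => D.relation σ₀ hσ₀ x)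
  refine ⟨?_, ?_⟩
  · intro σ hσ x hx
    exact key.1 σ hσ x (by rwa [natCast_zsmul] at hx)
  · intro σ hσ x hx
    have := key.2 σ hσ x (by rwa [natCast_zsmul] at hx)
    rw [natCast_zsmul]
    exact this

/-- **`RawESStatement` (the input of rows S29/S42/S30) from the final interface of row S37**:
`WeakRedData` at auxiliary levels plus `PullData`; same hypothesis shape as
`Core.result_of_weakRedData`, for all levels `N`. -/
theorem rawES_of_weakRedData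
    (H : ∀ (N : ℕ) [NeZero N] (ℓ : ℕ) (hℓ : ℓ.Prime), ¬ ℓ ∣ N →
      ∀ A : ValuationSubring (AlgebraicClosure ℚ), A.LiesOverPrime ℓ →
        ∀ σ₀ : AlgebraicClosure ℚ ≃ₐ[ℚ] AlgebraicClosure ℚ, A.IsFrobeniusAt σ₀ ℓ →
          haveI : NeZero ℓ := ⟨hℓ.ne_zero⟩
          ∃ (M : ℕ) (_ : NeZero M),
            Nonempty (Core.WeakRedData M A ℓ σ₀) ∧ Nonempty (Core.PullData N M ℓ)) :
    Fermat.Agent.S29.RawESStatement := by
  intro N p _ _ ℓ hℓ hdvd A hA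
  have hℓN : ¬ ℓ ∣ N := fun h => hdvd (Dvd.dvd.mul_right h p)
  have hℓp : ¬ ℓ ∣ p := fun h => hdvd (Dvd.dvd.mul_left h N)
  obtain ⟨σ₀, hσ₀⟩ := exists_isFrobeniusAt ℓ hℓ A hA
  haveI : NeZero ℓ := ⟨hℓ.ne_zero⟩
  obtain ⟨M, hM, ⟨W⟩, ⟨Pd⟩⟩ := H N ℓ hℓ hℓN A hA σ₀ hσ₀
  exact rawES_at_of_weakRedData N M p A ℓ hℓ hℓp σ₀ hσ₀ W Pd

/-- **`RawESStatement` from `RedData` at all levels and places.** -/
theorem rawES_of_redData
    (H : ∀ (N : ℕ) [NeZero N] (ℓ : ℕ) (hℓ : ℓ.Prime), ¬ ℓ ∣ N →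
      ∀ A : ValuationSubring (AlgebraicClosure ℚ), A.LiesOverPrime ℓ →
        Nonempty (RedData N A ℓ hℓ)) :
    Fermat.Agent.S29.RawESStatement := by
  intro N p _ _ ℓ hℓ hdvd A hA
  have hℓN : ¬ ℓ ∣ N := fun h => hdvd (Dvd.dvd.mul_right h p)
  have hℓp : ¬ ℓ ∣ p := fun h => hdvd (Dvd.dvd.mul_left h N)
  obtain ⟨D⟩ := H N ℓ hℓ hℓN A hA
  exact rawES_at_of_redData N p A ℓ hℓ hℓp hA D

end Fermat.Agent.S37.H99
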